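/-
Programme I (opt-in S33 long shot), leaf (L2) norm contraction, part 4: `n`-th roots of elements
close to `1` in a complete ultrametric normed field.

`L` a complete ultrametric normed field, `n : ℕ` with `(n : L) ≠ 0`, `‖x - 1‖ < ‖(n : L)‖ ^ 2`.
Then `x = y ^ n` with `‖y - 1‖ ≤ ‖x - 1‖ / ‖(n : L)‖` (Hensel/Newton with the fixed derivative `n`,
as a Banach fixed point on the closed ball).  The bound is not sharp (`m + 1/(p-1)` for `n = p^m`),
but in the contraction argument the depth tends to infinity anyway.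
-/
import Mathlib

set_option autoImplicit false

open Finset Metric

namespace Fermat.Agent.FF3.NormContr

variable {L : Type*} [NormedField L] [IsUltrametricDist L]

theorem norm_le_one_of_norm_sub_one_le {a : L} {δ : ℝ} (hδ : δ ≤ 1) (ha : ‖a - 1‖ ≤ δ) :
    ‖a‖ ≤ 1 := by
  have h := IsUltrametricDist.norm_add_le_max (a - 1) 1
  rw [sub_add_cancel, norm_one] at h
  exact h.trans (max_le (ha.trans hδ) le_rfl)

theorem norm_mul_sub_one_le {a b : L} {δ : ℝ} (hδ : δ ≤ 1) (ha : ‖a - 1‖ ≤ δ)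
    (hb : ‖b - 1‖ ≤ δ) : ‖a * b - 1‖ ≤ δ := by
  have h1 : a * b - 1 = (a - 1) * b + (b - 1) := by ring
  rw [h1]
  refine (IsUltrametricDist.norm_add_le_max _ _).trans (max_le ?_ hb)
  rw [norm_mul]
  calc ‖a - 1‖ * ‖b‖ ≤ δ * 1 :=
        mul_le_mul ha (norm_le_one_of_norm_sub_one_le hδ hb) (norm_nonneg _)
          ((norm_nonneg _).trans ha)
    _ = δ := mul_one δ

theorem norm_pow_sub_one_le {a : L} {δ : ℝ} (h0 : 0 ≤ δ) (hδ : δ ≤ 1) (ha : ‖a - 1‖ ≤ δ)
    (i : ℕ) : ‖a ^ i - 1‖ ≤ δ := by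
  induction i with
  | zero => simpa using h0
  | succ i ih => rw [pow_succ]; exact norm_mul_sub_one_le hδ ih ha

/-- The key Lipschitz estimate: `z ↦ (1 + z) ^ n - n z` is `max ‖z‖ ‖w‖`-Lipschitz on the unit ball. -/
theorem norm_pow_sub_pow_sub_le (n : ℕ) {z w : L} {δ : ℝ} (hδ : δ ≤ 1) (hz : ‖z‖ ≤ δ)
    (hw : ‖w‖ ≤ δ) :
    ‖((1 + z) ^ n - (n : L) * z) - ((1 + w) ^ n - (n : L) * w)‖ ≤ δ * ‖z - w‖ := by
  have h0 : 0 ≤ δ := (norm_nonneg _).trans hz
  have hgeom := Commute.geom_sum₂_mul (Commute.all (1 + z) (1 + w)) n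
  have hid : ((1 + z) ^ n - (n : L) * z) - ((1 + w) ^ n - (n : L) * w) =
      (∑ i ∈ range n, ((1 + z) ^ i * (1 + w) ^ (n - 1 - i) - 1)) * (z - w) := by
    rw [Finset.sum_sub_distrib, Finset.sum_const, Finset.card_range, nsmul_eq_mul, mul_one,
      sub_mul]
    have : (1 + z) - (1 + w) = z - w := by ring
    rw [this] at hgeom
    rw [hgeom]
    ring
  rw [hid, norm_mul]
  refine mul_le_mul_of_nonneg_right ?_ (norm_nonneg _)
  refine IsUltrametricDist.norm_sum_le_of_forall_le_of_nonneg h0 fun i _ => ?_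
  refine norm_mul_sub_one_le hδ (norm_pow_sub_one_le h0 hδ ?_ _) (norm_pow_sub_one_le h0 hδ ?_ _)
  · simpa using hz
  · simpa using hw

variable [CompleteSpace L]

/-- **`n`-th roots of elements close to `1`.** -/
theorem exists_pow_eq_of_norm_sub_one_lt (n : ℕ) (hn : (n : L) ≠ 0) (x : L)
    (hx : ‖x - 1‖ < ‖(n : L)‖ ^ 2) :
    ∃ y : L, y ^ n = x ∧ ‖y - 1‖ ≤ ‖x - 1‖ / ‖(n : L)‖ := by
  have hnpos : 0 < ‖(n : L)‖ := norm_pos_iff.mpr hn
  have hnle : ‖(n : L)‖ ≤ 1 := IsUltrametricDist.norm_natCast_le_one L n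
  set r : ℝ := ‖x - 1‖ / ‖(n : L)‖ with hr
  have hr0 : 0 ≤ r := div_nonneg (norm_nonneg _) hnpos.le
  have hrn : r < ‖(n : L)‖ := by
    rw [hr, div_lt_iff₀ hnpos, ← pow_two]; exact hx
  have hr1 : r ≤ 1 := hrn.le.trans hnle
  -- the map
  let T : L → L := fun z => z - ((1 + z) ^ n - x) / (n : L)
  have hT : ∀ z, T z = ((x - 1) - ((1 + z) ^ n - (n : L) * z - 1)) / (n : L) := by
    intro z
    simp only [T]
    field_simp
    ring
  let s : Set L := closedBall (0 : L) r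
  have hsc : IsComplete s := (isClosed_closedBall).isComplete
  have hmem : ∀ z, z ∈ s ↔ ‖z‖ ≤ r := fun z => by simp [s]
  have hG : ∀ z, ‖z‖ ≤ r → ‖(1 + z) ^ n - (n : L) * z - 1‖ ≤ r * r := by
    intro z hz
    have := norm_pow_sub_pow_sub_le n hr1 hz (show ‖(0 : L)‖ ≤ r by simpa using hr0)
    simpa using this.trans (mul_le_mul_of_nonneg_left (by simpa using hz) hr0)
  have hsf : Set.MapsTo T s s := by
    intro z hz
    rw [hmem] at hz ⊢
    rw [hT, norm_div, div_le_iff₀ hnpos]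
    rw [sub_eq_add_neg]
    refine (IsUltrametricDist.norm_add_le_max _ _).trans (max_le ?_ ?_)
    · rw [hr, div_mul_cancel₀ _ hnpos.ne']
    · rw [norm_neg]
      exact (hG z hz).trans (mul_le_mul_of_nonneg_left hrn.le hr0)
  have hlip : ∀ z w, ‖z‖ ≤ r → ‖w‖ ≤ r → ‖T z - T w‖ ≤ (r / ‖(n : L)‖) * ‖z - w‖ := by
    intro z w hz hw
    have h1 : T z - T w =
        -(((1 + z) ^ n - (n : L) * z) - ((1 + w) ^ n - (n : L) * w)) / (n : L) := by
      simp only [T]
      field_simp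
      ring
    rw [h1, norm_div, norm_neg, div_mul_eq_mul_div, div_le_div_iff_of_pos_right hnpos]
    exact norm_pow_sub_pow_sub_le n hr1 hz hw
  let K : NNReal := ⟨r / ‖(n : L)‖, div_nonneg hr0 hnpos.le⟩
  have hK : K < 1 := by
    have h1 : (K : ℝ) < ((1 : NNReal) : ℝ) := by
      rw [NNReal.coe_one]
      exact (div_lt_one hnpos).mpr hrn
    exact_mod_cast h1
  have hcontr : ContractingWith K (hsf.restrict T s s) := by
    refine ⟨hK, LipschitzWith.of_dist_le_mul fun a b => ?_⟩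
    rw [Subtype.dist_eq, Subtype.dist_eq, dist_eq_norm, dist_eq_norm]
    exact hlip a b ((hmem _).mp a.2) ((hmem _).mp b.2)
  have h0s : (0 : L) ∈ s := by rw [hmem]; simpa using hr0
  obtain ⟨z, hzs, hfix, -, -⟩ := hcontr.exists_fixedPoint' hsc hsf h0s (edist_ne_top _ _)
  refine ⟨1 + z, ?_, ?_⟩
  · have h2 : T z = z := hfix
    simp only [T] at h2
    have h3 : ((1 + z) ^ n - x) / (n : L) = 0 := by linear_combination -h2
    rw [div_eq_zero_iff] at h3
    rcases h3 with h3 | h3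
    · exact sub_eq_zero.mp h3
    · exact absurd h3 hn
  · rw [add_sub_cancel_left]
    exact (hmem z).mp hzs

end Fermat.Agent.FF3.NormContr
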