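/-
Programme I (opt-in S33 long shot), leaf (L2) norm contraction, part 5: the contraction argument.

`L` a complete ultrametric normed field, `n : ℕ` with `(n : L) ≠ 0` (in the application `n = p^m`),
`S ≤ Lˣ` a subgroup containing all `n`-th powers (application: constants times `n`-th powers),
`N : Lˣ →* Lˣ` (application: `N_φ = φ⁻¹ ∘ N_{L/φ(L)}`) with `N S ⊆ S` and the CONTRACTION
  `‖N u - 1‖ ≤ max (‖u - 1‖ ^ d) (c * ‖u - 1‖)`  for `‖u - 1‖ < 1`   (`2 ≤ d`, `0 ≤ c < 1`;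
application `d = p`, `c = ‖p‖`).  Then
  `f = s u` with `s ∈ S`, `‖u - 1‖ < 1`, and `f / N (N f) ∈ S`   ⟹   `f ∈ S`.
(Lead's finding #1719 Step A: 'f_inf = N_φ²(f_inf) mod constants and p^m-th powers, and
x ∈ torSub, imply x ∈ tor#'.)
-/
import Mathlib
import Fermat.Agent.FF3.NormContr.PowRoot

set_option autoImplicit false

namespace Fermat.Agent.FF3.NormContr

variable {L : Type*} [NormedField L] [IsUltrametricDist L] [CompleteSpace L]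

/-- One contraction step in numbers. -/
theorem contr_step {d : ℕ} (hd : 2 ≤ d) {c δ₀ δ : ℝ} (hδ0 : 0 ≤ δ) (hδ : δ ≤ δ₀)
    (hδ₀ : δ₀ < 1) : max (δ ^ d) (c * δ) ≤ max δ₀ c * δ := by
  have h1 : δ ^ d ≤ δ₀ * δ := by
    obtain ⟨e, rfl⟩ : ∃ e, d = e + 2 := ⟨d - 2, by omega⟩
    have hδ1 : δ ≤ 1 := hδ.trans hδ₀.le
    calc δ ^ (e + 2) = δ ^ e * (δ * δ) := by ring
      _ ≤ 1 * (δ₀ * δ) := by
          refine mul_le_mul (pow_le_one₀ hδ0 hδ1) (mul_le_mul_of_nonneg_right hδ hδ0)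
            (mul_nonneg hδ0 hδ0) zero_le_one
      _ = δ₀ * δ := one_mul _
  refine max_le (h1.trans ?_) ?_
  · exact mul_le_mul_of_nonneg_right (le_max_left _ _) hδ0
  · exact mul_le_mul_of_nonneg_right (le_max_right _ _) hδ0

/-- **Contraction assembly.** -/
theorem mem_of_contraction (n : ℕ) (hn : (n : L) ≠ 0) (S : Subgroup Lˣ)
    (hpow : ∀ y : Lˣ, y ^ n ∈ S) (N : Lˣ →* Lˣ) (hNS : ∀ s ∈ S, N s ∈ S)
    {d : ℕ} (hd : 2 ≤ d) {c : ℝ} (hc0 : 0 ≤ c) (hc1 : c < 1)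
    (hcontr : ∀ u : Lˣ, ‖(u : L) - 1‖ < 1 →
      ‖((N u : Lˣ) : L) - 1‖ ≤ max (‖(u : L) - 1‖ ^ d) (c * ‖(u : L) - 1‖))
    (f s u : Lˣ) (hs : s ∈ S) (hfsu : f = s * u) (hu : ‖(u : L) - 1‖ < 1)
    (hf : f / N (N f) ∈ S) : f ∈ S := by
  -- reduce to `u`
  have hu' : u / N (N u) ∈ S := by
    have h1 : u / N (N u) = (f / N (N f)) * (N (N s) / s) := by
      rw [hfsu, map_mul, map_mul, div_mul_div_comm, div_eq_div_iff_mul_eq_mul]
      ac_rfl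
    rw [h1]
    exact S.mul_mem hf (S.div_mem (hNS _ (hNS _ hs)) hs)
  suffices hsuff : u ∈ S by rw [hfsu]; exact S.mul_mem hs hsuff
  set δ₀ : ℝ := ‖(u : L) - 1‖ with hδ₀
  set κ : ℝ := max δ₀ c with hκ
  have hκ0 : 0 ≤ κ := le_max_of_le_right hc0
  have hκ1 : κ < 1 := max_lt hu hc1
  -- the iterates
  let N2 : Lˣ →* Lˣ := N.comp N
  have hN2S : ∀ s ∈ S, N2 s ∈ S := fun s hs => hNS _ (hNS _ hs)
  have hstep : ∀ v : Lˣ, ‖(v : L) - 1‖ ≤ δ₀ → ‖((N v : Lˣ) : L) - 1‖ ≤ κ * ‖(v : L) - 1‖ :=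
    fun v hv => (hcontr v (hv.trans_lt hu)).trans
      (contr_step hd (norm_nonneg _) hv hu)
  have hstep2 : ∀ v : Lˣ, ‖(v : L) - 1‖ ≤ δ₀ →
      ‖((N2 v : Lˣ) : L) - 1‖ ≤ κ * ‖(v : L) - 1‖ := by
    intro v hv
    have h1 := hstep v hv
    have h2 : ‖((N v : Lˣ) : L) - 1‖ ≤ δ₀ :=
      h1.trans ((mul_le_of_le_one_left (norm_nonneg _) hκ1.le).trans hv)
    have h3 := hstep (N v) h2
    calc ‖((N2 v : Lˣ) : L) - 1‖ ≤ κ * ‖((N v : Lˣ) : L) - 1‖ := h3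
      _ ≤ 1 * ‖((N v : Lˣ) : L) - 1‖ := mul_le_mul_of_nonneg_right hκ1.le (norm_nonneg _)
      _ = ‖((N v : Lˣ) : L) - 1‖ := one_mul _
      _ ≤ κ * ‖(v : L) - 1‖ := h1
  have hiter : ∀ k : ℕ, ‖(((N2^[k]) u : Lˣ) : L) - 1‖ ≤ κ ^ k * δ₀ ∧ u / (N2^[k]) u ∈ S ∧
      (N2^[k]) u / N2 ((N2^[k]) u) ∈ S := by
    intro k
    induction k with
    | zero =>
      refine ⟨by simp [hδ₀], by simp [S.one_mem], ?_⟩
      simpa [N2] using hu'
    | succ k ih =>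
      obtain ⟨ih1, ih2, ih3⟩ := ih
      have hle : ‖(((N2^[k]) u : Lˣ) : L) - 1‖ ≤ δ₀ :=
        ih1.trans (mul_le_of_le_one_left (norm_nonneg _) (pow_le_one₀ hκ0 hκ1.le))
      rw [Function.iterate_succ_apply']
      refine ⟨?_, ?_, ?_⟩
      · calc ‖((N2 ((N2^[k]) u) : Lˣ) : L) - 1‖ ≤ κ * ‖(((N2^[k]) u : Lˣ) : L) - 1‖ :=
              hstep2 _ hle
          _ ≤ κ * (κ ^ k * δ₀) := mul_le_mul_of_nonneg_left ih1 hκ0
          _ = κ ^ (k + 1) * δ₀ := by ring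
      · have : u / N2 ((N2^[k]) u) = (u / (N2^[k]) u) * ((N2^[k]) u / N2 ((N2^[k]) u)) :=
          (div_mul_div_cancel _ _ _).symm
        rw [this]
        exact S.mul_mem ih2 ih3
      · have : N2 ((N2^[k]) u) / N2 (N2 ((N2^[k]) u)) = N2 ((N2^[k]) u / N2 ((N2^[k]) u)) := by
          rw [map_div]
        rw [this]
        exact hN2S _ ih3
  -- choose `k` with `κ ^ k * δ₀ < ‖n‖ ^ 2`
  have hnpos : 0 < ‖(n : L)‖ ^ 2 := pow_pos (norm_pos_iff.mpr hn) 2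
  obtain ⟨k, hk⟩ : ∃ k : ℕ, κ ^ k * δ₀ < ‖(n : L)‖ ^ 2 := by
    have htend : Filter.Tendsto (fun k : ℕ => κ ^ k * δ₀) Filter.atTop (nhds (0 * δ₀)) :=
      (tendsto_pow_atTop_nhds_zero_of_lt_one hκ0 hκ1).mul_const δ₀
    rw [zero_mul] at htend
    exact ((htend.eventually (gt_mem_nhds hnpos)).exists)
  obtain ⟨h1, h2, -⟩ := hiter k
  obtain ⟨y, hy, hy1⟩ := exists_pow_eq_of_norm_sub_one_lt n hn (((N2^[k]) u : Lˣ) : L)
    (h1.trans_lt hk)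
  have hy0 : y ≠ 0 := by
    intro h0
    rw [h0] at hy
    rcases Nat.eq_zero_or_pos n with hn0 | hn0
    · exact hn (by rw [hn0]; simp)
    · rw [zero_pow hn0.ne'] at hy
      exact (Units.ne_zero _) hy.symm
  have hyS : (N2^[k]) u ∈ S := by
    have : (N2^[k]) u = (Units.mk0 y hy0) ^ n := by
      apply Units.ext
      rw [Units.val_pow_eq_pow_val, Units.val_mk0, hy]
    rw [this]
    exact hpow _
  have : u = (u / (N2^[k]) u) * (N2^[k]) u := (div_mul_cancel _ _).symm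
  rw [this]
  exact S.mul_mem h2 hyS

end Fermat.Agent.FF3.NormContr
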