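/-
Programme I (opt-in S33 long shot), leaf (L2) norm contraction, part 1: symmetric functions of a
finite family in a commutative ring, in the form needed for norms and traces.

For `x : ι → E` (`ι` a fintype) put `esym x j = ∑_{|t| = j} ∏_{i ∈ t} x i` and
`psm x i = ∑_σ (x σ) ^ i`.  Then
* `prod_one_add_mul`   : `∏ σ, (1 + c * x σ) = ∑_{j ≤ card ι} c ^ j * esym x j`;
* `newton`             : `j * esym x j = (-1)^(j+1) * ∑_{a ∈ antidiagonal j, a.1 < j}
                            (-1)^a.1 * esym x a.1 * psm x a.2` (Newton's identities, from Mathlib's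
                            `MvPolynomial.mul_esymm_eq_sum`);
* `esym_mem_of_psm_mem`: if `R ≤ E` is a subring in which `1, …, n - 1` are invertible, `I` an ideal-like
                         additive subgroup stable under multiplication by `R`, and `psm x i ∈ I` for `0 < i < n`,
                         then `esym x j ∈ I` for `0 < j < n`.
-/
import Mathlib

set_option autoImplicit false

open Finset MvPolynomial

namespace Fermat.Agent.FF3.NormContr

variable {ι : Type*} [Fintype ι] {E : Type*} [CommRing E]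

/-- The `j`-th elementary symmetric function of the family `x`. -/
noncomputable def esym (x : ι → E) (j : ℕ) : E :=
  ∑ t ∈ powersetCard j (univ : Finset ι), ∏ i ∈ t, x i

/-- The `i`-th power sum of the family `x`. -/
noncomputable def psm (x : ι → E) (i : ℕ) : E := ∑ σ, x σ ^ i

theorem esym_zero (x : ι → E) : esym x 0 = 1 := by
  simp [esym]

theorem esym_card (x : ι → E) : esym x (Fintype.card ι) = ∏ σ, x σ := by
  simp [esym, ← Finset.card_univ]

theorem psm_zero (x : ι → E) : psm x 0 = Fintype.card ι := by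
  simp [psm]

theorem aeval_esymm_eq_esym (x : ι → E) (j : ℕ) :
    aeval x (esymm ι ℤ j) = esym x j := by
  simp [esymm, esym, map_sum, map_prod]

theorem aeval_psum_eq_psm (x : ι → E) (i : ℕ) :
    aeval x (psum ι ℤ i) = psm x i := by
  simp [psum, psm, map_sum]

/-- `∏ σ, (1 + c * x σ) = ∑_{j ≤ card ι} c ^ j * esym x j`. -/
theorem prod_one_add_mul (x : ι → E) (c : E) :
    ∏ σ, (1 + c * x σ) = ∑ j ∈ range (Fintype.card ι + 1), c ^ j * esym x j := by
  classical
  rw [Finset.prod_one_add, ← Finset.card_univ, Finset.sum_powerset]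
  refine Finset.sum_congr rfl fun j _ => ?_
  rw [esym, Finset.mul_sum]
  refine Finset.sum_congr rfl fun t ht => ?_
  rw [Finset.prod_mul_distrib, Finset.prod_const, (mem_powersetCard.mp ht).2]

/-- Newton's identities for a finite family in a commutative ring. -/
theorem newton (x : ι → E) (j : ℕ) :
    (j : E) * esym x j = (-1) ^ (j + 1) *
      ∑ a ∈ antidiagonal j with a.1 < j, (-1) ^ a.1 * esym x a.1 * psm x a.2 := by
  have h := congrArg (aeval x) (mul_esymm_eq_sum ι ℤ j)
  simpa [map_mul, map_sum, map_pow, aeval_esymm_eq_esym, aeval_psum_eq_psm] using h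

/-- If the power sums `psm x i`, `0 < i < n`, lie in an `R`-stable additive subgroup `I ⊆ R` of `E`
(`R` a subring in which `1, …, n - 1` are invertible), then so do the elementary symmetric functions
`esym x j`, `0 < j < n`. -/
theorem esym_mem_of_psm_mem (x : ι → E) (R : Subring E) (I : AddSubgroup E) (n : ℕ)
    (hIR : ∀ a ∈ I, a ∈ R) (hRI : ∀ r ∈ R, ∀ a ∈ I, r * a ∈ I)
    (hinv : ∀ j : ℕ, 0 < j → j < n → ∃ u ∈ R, u * (j : E) = 1)
    (hps : ∀ i : ℕ, 0 < i → i < n → psm x i ∈ I) :
    ∀ j : ℕ, 0 < j → j < n → esym x j ∈ I := by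
  intro j
  induction j using Nat.strong_induction_on with
  | _ j ih =>
    intro hj0 hjn
    obtain ⟨u, huR, hu⟩ := hinv j hj0 hjn
    have hN := newton x j
    have hsum : (∑ a ∈ antidiagonal j with a.1 < j,
        (-1 : E) ^ a.1 * esym x a.1 * psm x a.2) ∈ I := by
      refine AddSubgroup.sum_mem _ fun a ha => ?_
      rw [Finset.mem_filter, HasAntidiagonal.mem_antidiagonal] at ha
      obtain ⟨ha1, ha2⟩ := ha
      have hps' : psm x a.2 ∈ I := hps a.2 (by omega) (by omega)
      have hR : (-1 : E) ^ a.1 * esym x a.1 ∈ R := by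
        refine R.mul_mem (R.pow_mem (R.neg_mem R.one_mem) _) ?_
        rcases Nat.eq_zero_or_pos a.1 with h0 | h0
        · rw [h0, esym_zero]; exact R.one_mem
        · exact hIR _ (ih a.1 ha2 h0 (by omega))
      exact hRI _ hR _ hps'
    have h1 : (j : E) * esym x j ∈ I := by
      rw [hN]
      exact hRI _ (R.pow_mem (R.neg_mem R.one_mem) _) _ hsum
    have h2 : esym x j = u * ((j : E) * esym x j) := by
      rw [← mul_assoc, hu, one_mul]
    rw [h2]
    exact hRI _ huR _ h1

theorem esym_eq_zero_of_card_lt (x : ι → E) {j : ℕ} (hj : Fintype.card ι < j) : esym x j = 0 := by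
  rw [esym, Finset.powersetCard_eq_empty.mpr (by rwa [Finset.card_univ]), Finset.sum_empty]

/-- Newton's identities, solved for the power sums. -/
theorem newton_psm (x : ι → E) (k : ℕ) (hk : 0 < k) :
    psm x k = (-1) ^ (k + 1) * (k : E) * esym x k -
      ∑ a ∈ antidiagonal k with a.1 ∈ Set.Ioo 0 k, (-1) ^ a.1 * esym x a.1 * psm x a.2 := by
  have h := congrArg (aeval x) (psum_eq_mul_esymm_sub_sum ι ℤ k hk)
  simpa [map_mul, map_sum, map_pow, map_sub, aeval_esymm_eq_esym, aeval_psum_eq_psm] using h

/-- Conversely: if the elementary symmetric functions `esym x j`, `0 < j < card ι`, lie in an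
`R`-stable additive subgroup `I ⊆ R`, the last one lies in `R`, and `card ι ∈ I`, then all power
sums `psm x i`, `0 < i`, lie in `I`. -/
theorem psm_mem_of_esym_mem (x : ι → E) (R : Subring E) (I : AddSubgroup E)
    (hIR : ∀ a ∈ I, a ∈ R) (hRI : ∀ r ∈ R, ∀ a ∈ I, r * a ∈ I)
    (hes : ∀ j : ℕ, 0 < j → j < Fintype.card ι → esym x j ∈ I)
    (hen : esym x (Fintype.card ι) ∈ R) (hcard : ((Fintype.card ι : ℕ) : E) ∈ I) :
    ∀ i : ℕ, 0 < i → psm x i ∈ I := by
  have hesR : ∀ j : ℕ, esym x j ∈ R := by
    intro j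
    rcases Nat.eq_zero_or_pos j with h0 | h0
    · rw [h0, esym_zero]; exact R.one_mem
    rcases lt_trichotomy j (Fintype.card ι) with h | h | h
    · exact hIR _ (hes j h0 h)
    · rw [h]; exact hen
    · rw [esym_eq_zero_of_card_lt x h]; exact R.zero_mem
  have hsign : ∀ m : ℕ, ((-1 : E)) ^ m ∈ R := fun m => R.pow_mem (R.neg_mem R.one_mem) _
  intro i
  induction i using Nat.strong_induction_on with
  | _ k ih =>
    intro hk
    rw [newton_psm x k hk]
    refine I.sub_mem ?_ ?_
    · -- the term `± k * esym x k`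
      rw [mul_assoc]
      refine hRI _ (hsign _) _ ?_
      rcases lt_trichotomy k (Fintype.card ι) with h | h | h
      · exact hRI _ (natCast_mem R k) _ (hes k hk h)
      · rw [h, mul_comm]; exact hRI _ hen _ hcard
      · rw [esym_eq_zero_of_card_lt x h, mul_zero]; exact I.zero_mem
    · refine AddSubgroup.sum_mem _ fun a ha => ?_
      rw [Finset.mem_filter, HasAntidiagonal.mem_antidiagonal, Set.mem_Ioo] at ha
      obtain ⟨ha1, ha2, ha3⟩ := ha
      exact hRI _ (R.mul_mem (hsign _) (hesR _)) _ (ih a.2 (by omega) (by omega))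

end Fermat.Agent.FF3.NormContr
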