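/-
Programme I (opt-in S33 long shot), leaf (L2) norm contraction, part 2: the norm of `1 + π h` in a
separable field extension of prime degree whose traces are divisible by `p`.

`L / K` finite separable of degree `n`, `O ≤ K` a subring in which `1, …, n - 1` are invertible,
`q : K` (in the application `q = p = n`), `h : L` with `Tr_{L/K}(h ^ i) ∈ q O` for `0 < i < n`.
Then for every `π ∈ O`
  `N_{L/K}(1 + π h) = 1 + π ^ n N_{L/K}(h) + q π a`   for some `a ∈ O`.
(Lead's finding #1719, Step A: 'the elementary symmetric functions `e_j`, `0 < j < p`, of the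
conjugates of `h` are `≡ 0 mod p`'.)
-/
import Mathlib
import Fermat.Agent.FF3.NormContr.Sym

set_option autoImplicit false

open Finset

namespace Fermat.Agent.FF3.NormContr

variable {K L : Type*} [Field K] [Field L] [Algebra K L] [FiniteDimensional K L]
  [Algebra.IsSeparable K L]

/-- The additive subgroup `{ι (q * c * a) | a ∈ O}` of `E`. -/
def mulImage {E : Type*} [CommRing E] (f : K →+* E) (O : Subring K) (c : K) : AddSubgroup E where
  carrier := {e | ∃ a ∈ O, e = f (c * a)}
  zero_mem' := ⟨0, O.zero_mem, by simp⟩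
  add_mem' := by
    rintro _ _ ⟨a, ha, rfl⟩ ⟨b, hb, rfl⟩
    exact ⟨a + b, O.add_mem ha hb, by rw [mul_add, map_add]⟩
  neg_mem' := by
    rintro _ ⟨a, ha, rfl⟩
    exact ⟨-a, O.neg_mem ha, by rw [mul_neg, map_neg]⟩

theorem mem_mulImage {E : Type*} [CommRing E] (f : K →+* E) (O : Subring K) (c : K) (e : E) :
    e ∈ mulImage f O c ↔ ∃ a ∈ O, e = f (c * a) := Iff.rfl

/-- **Norm of `1 + π h`** when the traces of the powers of `h` are divisible by `q`. -/
theorem norm_one_add_smul (O : Subring K) (q : K) (hq : q ∈ O) (h : L)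
    (hinv : ∀ j : ℕ, 0 < j → j < Module.finrank K L → ∃ u ∈ O, u * (j : K) = 1)
    (htr : ∀ i : ℕ, 0 < i → i < Module.finrank K L →
      ∃ a ∈ O, Algebra.trace K L (h ^ i) = q * a)
    (π : K) (hπ : π ∈ O) :
    ∃ a ∈ O, Algebra.norm K (1 + π • h) =
      1 + π ^ Module.finrank K L * Algebra.norm K h + q * π * a := by
  classical
  set n := Module.finrank K L with hn
  let E := AlgebraicClosure K
  let f : K →+* E := algebraMap K E
  have hcard : Fintype.card (L →ₐ[K] E) = n := by
    rw [AlgHom.card K L E]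
  let x : (L →ₐ[K] E) → E := fun σ => σ h
  -- power sums are traces
  have hpsm : ∀ i : ℕ, psm x i = f (Algebra.trace K L (h ^ i)) := by
    intro i
    rw [psm]
    have := trace_eq_sum_embeddings (K := K) (L := L) E (x := h ^ i)
    rw [show f (Algebra.trace K L (h ^ i)) = algebraMap K E (Algebra.trace K L (h ^ i)) from rfl,
      this]
    exact Finset.sum_congr rfl fun σ _ => (map_pow σ h i).symm
  -- the subring and the ideal-like subgroup
  let R : Subring E := O.map f
  let I : AddSubgroup E := mulImage f O q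
  have hIR : ∀ a ∈ I, a ∈ R := by
    rintro _ ⟨a, ha, rfl⟩
    exact ⟨q * a, O.mul_mem hq ha, rfl⟩
  have hRI : ∀ r ∈ R, ∀ a ∈ I, r * a ∈ I := by
    rintro _ ⟨r, hr, rfl⟩ _ ⟨a, ha, rfl⟩
    exact ⟨r * a, O.mul_mem hr ha, by rw [← map_mul]; congr 1; ring⟩
  have hinv' : ∀ j : ℕ, 0 < j → j < n → ∃ u ∈ R, u * (j : E) = 1 := by
    intro j hj0 hjn
    obtain ⟨u, hu, huj⟩ := hinv j hj0 hjn
    refine ⟨f u, ⟨u, hu, rfl⟩, ?_⟩
    have : f (u * (j : K)) = 1 := by rw [huj, map_one]
    simpa [map_mul] using this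
  have hps : ∀ i : ℕ, 0 < i → i < n → psm x i ∈ I := by
    intro i hi0 hin
    obtain ⟨a, ha, hia⟩ := htr i hi0 hin
    rw [hpsm, hia]
    exact ⟨a, ha, rfl⟩
  have hes := esym_mem_of_psm_mem x R I n hIR hRI hinv' hps
  -- expand the product
  have hprod : f (Algebra.norm K (1 + π • h)) = ∑ j ∈ range (n + 1), f π ^ j * esym x j := by
    rw [show f (Algebra.norm K (1 + π • h)) = algebraMap K E (Algebra.norm K (1 + π • h)) from rfl,
      Algebra.norm_eq_prod_embeddings K E, ← hcard, ← prod_one_add_mul]
    refine Finset.prod_congr rfl fun σ _ => ?_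
    rw [map_add, map_one, map_smul, Algebra.smul_def]
  have hnormh : f (Algebra.norm K h) = esym x n := by
    rw [← hcard, esym_card]
    exact Algebra.norm_eq_prod_embeddings K E h
  -- the middle terms
  let I' : AddSubgroup E := mulImage f O (q * π)
  have hmid : ∀ j : ℕ, 0 < j → j < n → f π ^ j * esym x j ∈ I' := by
    intro j hj0 hjn
    obtain ⟨a, ha, hja⟩ := hes j hj0 hjn
    refine ⟨π ^ (j - 1) * a, O.mul_mem (O.pow_mem hπ _) ha, ?_⟩
    rw [hja, ← map_pow, ← map_mul]
    congr 1
    obtain ⟨k, rfl⟩ : ∃ k, j = k + 1 := ⟨j - 1, by omega⟩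
    rw [Nat.add_sub_cancel, pow_succ]
    ring
  rcases Nat.eq_zero_or_pos n with hn0 | hn0
  · -- degenerate: `n = 0` is impossible for a finite extension, but we treat it formally
    exfalso
    have : 0 < Module.finrank K L := Module.finrank_pos
    omega
  have hsplit : ∑ j ∈ range (n + 1), f π ^ j * esym x j =
      1 + f π ^ n * esym x n + ∑ j ∈ (range n).filter (fun j => 0 < j), f π ^ j * esym x j := by
    rw [Finset.sum_range_succ]
    have h0 : ∑ j ∈ range n, f π ^ j * esym x j =
        f π ^ 0 * esym x 0 + ∑ j ∈ (range n).filter (fun j => 0 < j), f π ^ j * esym x j := by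
      rw [← Finset.sum_filter_add_sum_filter_not (range n) (fun j => 0 < j), add_comm]
      congr 1
      have : (range n).filter (fun j => ¬ 0 < j) = {0} := by
        ext j
        simp only [Finset.mem_filter, Finset.mem_range, Finset.mem_singleton]
        omega
      rw [this, Finset.sum_singleton]
    rw [h0, pow_zero, one_mul, esym_zero]
    ring
  have hmidsum : (∑ j ∈ (range n).filter (fun j => 0 < j), f π ^ j * esym x j) ∈ I' := by
    refine AddSubgroup.sum_mem _ fun j hj => ?_
    rw [Finset.mem_filter, Finset.mem_range] at hj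
    exact hmid j hj.2 hj.1
  obtain ⟨a, ha, hsum⟩ := hmidsum
  refine ⟨a, ha, ?_⟩
  apply (algebraMap K E).injective
  change f _ = f _
  rw [hprod, hsplit, hsum, ← hnormh]
  simp only [map_add, map_mul, map_one, map_pow]

end Fermat.Agent.FF3.NormContr
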