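/-
Programme I (opt-in S33 long shot), leaf (L2) norm contraction, part 3: the trace criterion.

`L = K(t)` finite separable of degree `n`, `O ≤ K` a subring, `q ∈ O`.  If the minimal polynomial
`T^n + c_{n-1} T^{n-1} + … + c_0` of `t` has `c_0 ∈ O`, `c_k ∈ q O` for `0 < k < n` and `n ∈ q O`
(the shape `≡ T^p - y mod p` which Kronecker's congruence gives for a Frobenius lift, with
`q = p = n`), then `Tr_{L/K}(b) ∈ q O` for every `b ∈ O[t]`; consequently (with `1, …, n-1`
invertible in `O`) for `h ∈ O[t]`, `π ∈ O`: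
  `N_{L/K}(1 + π h) = 1 + π ^ n N_{L/K}(h) + q π a`, `a ∈ O`.
-/
import Mathlib
import Fermat.Agent.FF3.NormContr.NormOneAdd

set_option autoImplicit false

open Finset Polynomial IntermediateField

namespace Fermat.Agent.FF3.NormContr

variable {K L : Type*} [Field K] [Field L] [Algebra K L] [FiniteDimensional K L]
  [Algebra.IsSeparable K L]

/-- For a primitive element `t`, the minimal polynomial of `t` over `K`, mapped to an algebraically
closed field `E`, is the product of the `X - σ t` over all embeddings `σ`. -/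
theorem map_minpoly_eq_prod_embeddings (E : Type*) [Field E] [Algebra K E] [IsAlgClosed E] (t : L)
    (hdeg : (minpoly K t).natDegree = Module.finrank K L) :
    (minpoly K t).map (algebraMap K E) = ∏ σ : L →ₐ[K] E, (X - C (σ t)) := by
  classical
  have hint : IsIntegral K t := Algebra.IsIntegral.isIntegral t
  have htop : Algebra.adjoin K {t} = ⊤ := by
    have h1 : K⟮t⟯ = ⊤ := (Field.primitive_element_iff_minpoly_natDegree_eq K t).mpr hdeg
    rw [← IntermediateField.adjoin_simple_toSubalgebra_of_isAlgebraic hint.isAlgebraic, h1,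
      IntermediateField.top_toSubalgebra]
  have hinj : Function.Injective (fun σ : L →ₐ[K] E => σ t) := by
    intro σ τ hστ
    refine AlgHom.ext_of_adjoin_eq_top htop ?_
    intro y hy
    rw [Set.mem_singleton_iff] at hy
    rw [hy]; exact hστ
  have hdvd : ∏ σ : L →ₐ[K] E, (X - C (σ t)) ∣ (minpoly K t).map (algebraMap K E) := by
    refine Finset.prod_dvd_of_coprime ?_ ?_
    · intro σ _ τ _ hne
      exact pairwise_coprime_X_sub_C hinj hne
    · intro σ _
      rw [dvd_iff_isRoot, IsRoot, eval_map, ← aeval_def, aeval_algHom_apply, minpoly.aeval,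
        map_zero]
  have hmonic : (∏ σ : L →ₐ[K] E, (X - C (σ t))).Monic :=
    monic_prod_of_monic _ _ fun σ _ => monic_X_sub_C _
  have hdegP : (∏ σ : L →ₐ[K] E, (X - C (σ t))).natDegree = Module.finrank K L := by
    rw [natDegree_finsetProd_X_sub_C_eq_card, Finset.card_univ, AlgHom.card K L E]
  refine eq_of_monic_of_dvd_of_natDegree_le hmonic ((minpoly.monic hint).map _) hdvd ?_
  rw [natDegree_map, hdeg, hdegP]

/-- Coefficients of the minimal polynomial of a primitive element as elementary symmetric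
functions of the conjugates. -/
theorem coeff_minpoly_eq_esym (E : Type*) [Field E] [Algebra K E] [IsAlgClosed E] (t : L)
    (hdeg : (minpoly K t).natDegree = Module.finrank K L) {k : ℕ}
    (hk : k ≤ Module.finrank K L) :
    algebraMap K E ((minpoly K t).coeff k) =
      (-1) ^ (Module.finrank K L - k) *
        esym (fun σ : L →ₐ[K] E => σ t) (Module.finrank K L - k) := by
  classical
  have hcard : Multiset.card ((Finset.univ : Finset (L →ₐ[K] E)).val.map fun σ => σ t) =
      Module.finrank K L := by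
    rw [Multiset.card_map]
    exact (Finset.card_univ).trans (AlgHom.card K L E)
  have h1 := Multiset.prod_X_sub_C_coeff
    ((Finset.univ : Finset (L →ₐ[K] E)).val.map fun σ => σ t) (k := k) (by rw [hcard]; exact hk)
  rw [hcard, Finset.esymm_map_val, Multiset.map_map] at h1
  rw [← coeff_map, map_minpoly_eq_prod_embeddings E t hdeg]
  exact h1

variable (O : Subring K) (q : K)

/-- **Trace criterion**: traces of the powers of a primitive element whose minimal polynomial is
`≡ T^n + c_0 mod q`. -/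
theorem trace_pow_mem_of_minpoly (hq : q ∈ O) (t : L)
    (hdeg : (minpoly K t).natDegree = Module.finrank K L)
    (hc0 : (minpoly K t).coeff 0 ∈ O)
    (hc : ∀ k : ℕ, 0 < k → k < Module.finrank K L → ∃ a ∈ O, (minpoly K t).coeff k = q * a)
    (hn : ∃ a ∈ O, ((Module.finrank K L : ℕ) : K) = q * a) :
    ∀ i : ℕ, 0 < i → ∃ a ∈ O, Algebra.trace K L (t ^ i) = q * a := by
  classical
  set n := Module.finrank K L with hndef
  let E := AlgebraicClosure K
  let f : K →+* E := algebraMap K E
  have hcard : Fintype.card (L →ₐ[K] E) = n := AlgHom.card K L E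
  let x : (L →ₐ[K] E) → E := fun σ => σ t
  let R : Subring E := O.map f
  let I : AddSubgroup E := mulImage f O q
  have hIR : ∀ a ∈ I, a ∈ R := by
    rintro _ ⟨a, ha, rfl⟩
    exact ⟨q * a, O.mul_mem hq ha, rfl⟩
  have hRI : ∀ r ∈ R, ∀ a ∈ I, r * a ∈ I := by
    rintro _ ⟨r, hr, rfl⟩ _ ⟨a, ha, rfl⟩
    exact ⟨r * a, O.mul_mem hr ha, by rw [← map_mul]; congr 1; ring⟩
  have hsignI : ∀ (m : ℕ) (e : E), e ∈ I → (-1) ^ m * e ∈ I := fun m e he =>
    hRI _ (R.pow_mem (R.neg_mem R.one_mem) _) _ he
  -- esym from the coefficients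
  have hes_eq : ∀ j : ℕ, j ≤ n → esym x j = (-1) ^ j * f ((minpoly K t).coeff (n - j)) := by
    intro j hj
    have := coeff_minpoly_eq_esym E t hdeg (k := n - j) (Nat.sub_le _ _)
    rw [← hndef, Nat.sub_sub_self hj] at this
    rw [show f ((minpoly K t).coeff (n - j)) = algebraMap K E ((minpoly K t).coeff (n - j)) from rfl,
      this, ← mul_assoc, ← pow_add, Even.neg_one_pow ⟨j, rfl⟩, one_mul]
  have hes : ∀ j : ℕ, 0 < j → j < Fintype.card (L →ₐ[K] E) → esym x j ∈ I := by
    intro j hj0 hjn
    rw [hcard] at hjn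
    rw [hes_eq j hjn.le]
    obtain ⟨a, ha, hka⟩ := hc (n - j) (by omega) (by omega)
    rw [hka]
    exact hsignI _ _ ⟨a, ha, rfl⟩
  have hen : esym x (Fintype.card (L →ₐ[K] E)) ∈ R := by
    rw [hcard, hes_eq n le_rfl, Nat.sub_self]
    exact R.mul_mem (R.pow_mem (R.neg_mem R.one_mem) _) ⟨_, hc0, rfl⟩
  have hcardI : ((Fintype.card (L →ₐ[K] E) : ℕ) : E) ∈ I := by
    rw [hcard]
    obtain ⟨a, ha, hna⟩ := hn
    refine ⟨a, ha, ?_⟩
    rw [← hna, map_natCast]
  have hps := psm_mem_of_esym_mem x R I hIR hRI hes hen hcardI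
  intro i hi
  obtain ⟨a, ha, hia⟩ := hps i hi
  refine ⟨a, ha, ?_⟩
  apply (algebraMap K E).injective
  change f _ = f _
  rw [← hia, psm]
  have := trace_eq_sum_embeddings (K := K) (L := L) E (x := t ^ i)
  rw [show f (Algebra.trace K L (t ^ i)) = algebraMap K E (Algebra.trace K L (t ^ i)) from rfl, this]
  exact Finset.sum_congr rfl fun σ _ => map_pow σ t i

/-- Traces of elements of `O[t]`. -/
theorem trace_aeval_mem_of_minpoly (hq : q ∈ O) (t : L)
    (hdeg : (minpoly K t).natDegree = Module.finrank K L)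
    (hc0 : (minpoly K t).coeff 0 ∈ O)
    (hc : ∀ k : ℕ, 0 < k → k < Module.finrank K L → ∃ a ∈ O, (minpoly K t).coeff k = q * a)
    (hn : ∃ a ∈ O, ((Module.finrank K L : ℕ) : K) = q * a) (P : O[X]) :
    ∃ a ∈ O, Algebra.trace K L (aeval t (P.map O.subtype)) = q * a := by
  classical
  have hpow := trace_pow_mem_of_minpoly O q hq t hdeg hc0 hc hn
  have hall : ∀ i : ℕ, ∃ a ∈ O, Algebra.trace K L (t ^ i) = q * a := by
    intro i
    rcases Nat.eq_zero_or_pos i with h0 | h0
    · rw [h0, pow_zero, ← map_one (algebraMap K L), Algebra.trace_algebraMap]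
      obtain ⟨a, ha, hna⟩ := hn
      refine ⟨a, ha, ?_⟩
      rw [← hna, nsmul_eq_mul, mul_one]
    · exact hpow i h0
  choose a ha hta using hall
  refine ⟨∑ i ∈ range ((P.map O.subtype).natDegree + 1), (P.coeff i : K) * a i,
    O.sum_mem fun i _ => O.mul_mem (P.coeff i).2 (ha i), ?_⟩
  rw [aeval_eq_sum_range, map_sum, Finset.mul_sum]
  refine Finset.sum_congr rfl fun i _ => ?_
  rw [map_smul, hta, coeff_map, smul_eq_mul]
  simp only [Subring.coe_subtype]
  ring

/-- **Norm of `1 + π h` for `h ∈ O[t]`** when the minimal polynomial of the primitive element `t`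
is `≡ T^n + c_0 mod q`. -/
theorem norm_one_add_smul_of_minpoly (hq : q ∈ O) (t : L)
    (hdeg : (minpoly K t).natDegree = Module.finrank K L)
    (hc0 : (minpoly K t).coeff 0 ∈ O)
    (hc : ∀ k : ℕ, 0 < k → k < Module.finrank K L → ∃ a ∈ O, (minpoly K t).coeff k = q * a)
    (hn : ∃ a ∈ O, ((Module.finrank K L : ℕ) : K) = q * a)
    (hinv : ∀ j : ℕ, 0 < j → j < Module.finrank K L → ∃ u ∈ O, u * (j : K) = 1)
    (P : O[X]) (π : K) (hπ : π ∈ O) :
    ∃ a ∈ O, Algebra.norm K (1 + π • aeval t (P.map O.subtype)) =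
      1 + π ^ Module.finrank K L * Algebra.norm K (aeval t (P.map O.subtype)) + q * π * a := by
  refine norm_one_add_smul O q hq _ hinv ?_ π hπ
  intro i _ _
  have := trace_aeval_mem_of_minpoly O q hq t hdeg hc0 hc hn (P ^ i)
  rwa [Polynomial.map_pow, map_pow] at this

end Fermat.Agent.FF3.NormContr
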