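/-
Programme I (opt-in S33 long shot), leaf (L2) norm contraction, part 6: from the algebraic norm
formula to the contraction inequality.

`K ⊆ L` ultrametric normed fields, `L / K` finite separable of degree `n` with primitive element
`t` whose minimal polynomial is `≡ T^n + c_0 mod q` (`‖c_0‖ ≤ 1`, `‖c_k‖ ≤ ‖q‖` for `0 < k < n`,
`‖n‖ ≤ ‖q‖`), `‖j‖ = 1` for `0 < j < n`, the unit ball of `L` is `O_K[t]`, the value group of `L`
is that of `K`, and norms of integral elements are integral.  Then for `‖u - 1‖ < 1`: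
  `‖N_{L/K}(u) - 1‖ ≤ max (‖u - 1‖ ^ n) (‖q‖ * ‖u - 1‖)`.
In the application `K = φ(L)`, `n = q = p`.
-/
import Mathlib
import Fermat.Agent.FF3.NormContr.TraceCrit

set_option autoImplicit false

open Polynomial

namespace Fermat.Agent.FF3.NormContr

/-- The closed unit ball of an ultrametric normed field, as a subring. -/
def unitBall (K : Type*) [NormedField K] [IsUltrametricDist K] : Subring K where
  carrier := {x | ‖x‖ ≤ 1}
  mul_mem' := by
    intro a b ha hb
    change ‖a‖ ≤ 1 at ha; change ‖b‖ ≤ 1 at hb; change ‖a * b‖ ≤ 1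
    rw [norm_mul]
    exact mul_le_one₀ ha (norm_nonneg _) hb
  one_mem' := by simp
  add_mem' := by
    intro a b ha hb
    exact (IsUltrametricDist.norm_add_le_max a b).trans (max_le ha hb)
  zero_mem' := by simp
  neg_mem' := by
    intro a ha
    simpa using ha

theorem mem_unitBall {K : Type*} [NormedField K] [IsUltrametricDist K] (x : K) :
    x ∈ unitBall K ↔ ‖x‖ ≤ 1 := Iff.rfl

variable {K L : Type*} [NormedField K] [IsUltrametricDist K] [NormedField L]
  [Algebra K L] [FiniteDimensional K L] [Algebra.IsSeparable K L]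

/-- **Contraction inequality for the norm.** -/
theorem norm_norm_sub_one_le (q : K) (hq0 : q ≠ 0) (hq1 : ‖q‖ ≤ 1) (t : L)
    (hdeg : (minpoly K t).natDegree = Module.finrank K L)
    (hc0 : ‖(minpoly K t).coeff 0‖ ≤ 1)
    (hc : ∀ k : ℕ, 0 < k → k < Module.finrank K L → ‖(minpoly K t).coeff k‖ ≤ ‖q‖)
    (hn : ‖((Module.finrank K L : ℕ) : K)‖ ≤ ‖q‖)
    (hj : ∀ j : ℕ, 0 < j → j < Module.finrank K L → ‖(j : K)‖ = 1)
    (hiso : ∀ x : K, ‖algebraMap K L x‖ = ‖x‖)
    (hval : ∀ x : L, ∃ π : K, ‖π‖ = ‖x‖)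
    (hbasis : ∀ h : L, ‖h‖ ≤ 1 →
      ∃ P : (unitBall K)[X], h = aeval t (P.map (unitBall K).subtype))
    (hnorm : ∀ h : L, ‖h‖ ≤ 1 → ‖Algebra.norm K h‖ ≤ 1)
    (u : L) (hu : ‖u - 1‖ < 1) :
    ‖Algebra.norm K u - 1‖ ≤ max (‖u - 1‖ ^ Module.finrank K L) (‖q‖ * ‖u - 1‖) := by
  have hqpos : 0 < ‖q‖ := norm_pos_iff.mpr hq0
  -- membership facts for `O = unitBall K`
  have hdivq : ∀ x : K, ‖x‖ ≤ ‖q‖ → ∃ a ∈ unitBall K, x = q * a := by
    intro x hx
    refine ⟨q⁻¹ * x, ?_, by field_simp⟩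
    rw [mem_unitBall, norm_mul, norm_inv, inv_mul_le_iff₀ hqpos, mul_one]
    exact hx
  by_cases hu1 : u = 1
  · rw [hu1, map_one, sub_self, norm_zero]
    exact le_max_of_le_left (pow_nonneg (norm_nonneg _) _)
  obtain ⟨π, hπ⟩ := hval (u - 1)
  have hπ0 : π ≠ 0 := by
    intro h0
    rw [h0, norm_zero] at hπ
    exact hu1 (sub_eq_zero.mp (norm_eq_zero.mp hπ.symm))
  have hπL : algebraMap K L π ≠ 0 := by
    intro h0
    have := hiso π
    rw [h0, norm_zero] at this
    exact hπ0 (norm_eq_zero.mp this.symm)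
  set h : L := (algebraMap K L π)⁻¹ * (u - 1) with hh
  have hh1 : ‖h‖ ≤ 1 := by
    rw [hh, norm_mul, norm_inv, hiso, hπ, inv_mul_cancel₀]
    rw [← hπ]; exact (norm_pos_iff.mpr hπ0).ne'
  have hu_eq : u = 1 + π • h := by
    rw [hh, Algebra.smul_def, ← mul_assoc, mul_inv_cancel₀ hπL, one_mul]
    ring
  obtain ⟨P, hP⟩ := hbasis h hh1
  have hπO : π ∈ unitBall K := by
    rw [mem_unitBall, hπ]; exact hu.le
  obtain ⟨a, ha, hformula⟩ := norm_one_add_smul_of_minpoly (unitBall K) q hq1 t hdeg hc0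
    (fun k hk0 hkn => hdivq _ (hc k hk0 hkn)) (hdivq _ hn)
    (fun j hj0 hjn => by
      have hjne : (j : K) ≠ 0 := by
        intro h0
        have := hj j hj0 hjn
        rw [h0, norm_zero] at this
        exact zero_ne_one this
      refine ⟨(j : K)⁻¹, ?_, inv_mul_cancel₀ hjne⟩
      rw [mem_unitBall, norm_inv, hj j hj0 hjn, inv_one])
    P π hπO
  rw [← hP, ← hu_eq] at hformula
  have hNh : ‖Algebra.norm K h‖ ≤ 1 := hnorm h hh1
  have h1 : Algebra.norm K u - 1 = π ^ Module.finrank K L * Algebra.norm K h + q * π * a := by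
    rw [hformula]; ring
  rw [h1]
  refine (IsUltrametricDist.norm_add_le_max _ _).trans (max_le_max ?_ ?_)
  · rw [norm_mul, norm_pow, hπ]
    exact mul_le_of_le_one_right (pow_nonneg (norm_nonneg _) _) hNh
  · rw [norm_mul, norm_mul, hπ]
    exact mul_le_of_le_one_right (mul_nonneg (norm_nonneg _) (norm_nonneg _)) ha

end Fermat.Agent.FF3.NormContr
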