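/-
Programme I (opt-in S33 long shot), leaf (L2) norm contraction, part 7: `‖N_{L/K} x‖ = ‖x‖ ^ [L:K]`
for a finite normed extension of a complete ultrametric field (uniqueness of the extension of the
norm, Mathlib's spectral norm).  This discharges the hypothesis `hnorm` of `norm_norm_sub_one_le`.
-/
import Mathlib

set_option autoImplicit false

open IntermediateField Polynomial

namespace Fermat.Agent.FF3.NormContr

variable {K L : Type*} [NontriviallyNormedField K] [IsUltrametricDist K] [CompleteSpace K]
  [NormedField L] [NormedAlgebra K L] [FiniteDimensional K L]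

/-- `‖x‖ ^ deg(minpoly x) = ‖minpoly(x)(0)‖`. -/
theorem norm_pow_natDegree_minpoly (x : L) :
    ‖x‖ ^ (minpoly K x).natDegree = ‖(minpoly K x).coeff 0‖ := by
  have hd : 0 < (minpoly K x).natDegree := minpoly.natDegree_pos (Algebra.IsIntegral.isIntegral x)
  rw [NormedAlgebra.norm_eq_spectralNorm K x, spectralNorm.spectralNorm_eq_norm_coeff_zero_rpow,
    ← Real.rpow_natCast, ← Real.rpow_mul (norm_nonneg _), one_div,
    inv_mul_cancel₀ (by exact_mod_cast hd.ne'), Real.rpow_one]

/-- **The norm of the field norm.** -/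
theorem norm_algebraNorm_eq_pow (x : L) :
    ‖Algebra.norm K x‖ = ‖x‖ ^ Module.finrank K L := by
  have hx : IsIntegral K x := Algebra.IsIntegral.isIntegral x
  have h1 := Algebra.norm_eq_norm_adjoin K x
  have h2 : Algebra.norm K (AdjoinSimple.gen K x) =
      (-1) ^ (minpoly K x).natDegree * (minpoly K x).coeff 0 := by
    have := Algebra.PowerBasis.norm_gen_eq_coeff_zero_minpoly (adjoin.powerBasis hx)
    rw [adjoin.powerBasis_gen hx, minpoly_gen] at this
    rw [this]
    rfl
  have h3 : Module.finrank K L = (minpoly K x).natDegree * Module.finrank K⟮x⟯ L := by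
    rw [← adjoin.finrank hx, Module.finrank_mul_finrank]
  rw [h1, h2, norm_pow, norm_mul, norm_pow, norm_neg, norm_one, one_pow, one_mul,
    ← norm_pow_natDegree_minpoly, ← pow_mul, ← h3]

theorem norm_algebraNorm_le_one {x : L} (hx : ‖x‖ ≤ 1) : ‖Algebra.norm K x‖ ≤ 1 := by
  rw [norm_algebraNorm_eq_pow]
  exact pow_le_one₀ (norm_nonneg _) hx

end Fermat.Agent.FF3.NormContr
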