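/-
Programme I (opt-in S33 long shot), leaf (L2) norm contraction, part 8: the assembled statement
(lead's finding #1719, Step A, 'Dwork contraction').

`K` a complete ultrametric nontrivially normed field, `L / K` a finite separable normed extension
of degree `n ≥ 2`, `e : K ≃+* L` an isometric ring isomorphism (in the application `K = φ(L)` for
the Frobenius lift `φ` and `e = φ⁻¹`), so that `N_e := e ∘ N_{L/K} : Lˣ →* Lˣ` is `N_φ`.
Assume `L = K(t)` with `minpoly(t) ≡ T^n + c_0 mod q` (`0 < ‖q‖ < 1`, `‖n‖ ≤ ‖q‖`; application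
`n = q = p`, Kronecker's congruence), `‖j‖ = 1` for `0 < j < n`, `O_L = O_K[t]` and `|L| = |K|`.
Then for every `m` with `(m : L) ≠ 0` and every subgroup `S ≤ Lˣ` containing all `m`-th powers and
stable under `N_e`:
   `f = s u`, `s ∈ S`, `‖u - 1‖ < 1`, `f / N_e (N_e f) ∈ S`   ⟹   `f ∈ S`.
-/
import Mathlib
import Fermat.Agent.FF3.NormContr.Bridge
import Fermat.Agent.FF3.NormContr.NormPow
import Fermat.Agent.FF3.NormContr.Contract

set_option autoImplicit false

open Polynomial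

namespace Fermat.Agent.FF3.NormContr

variable {K L : Type*} [NontriviallyNormedField K] [IsUltrametricDist K] [CompleteSpace K]
  [NormedField L] [IsUltrametricDist L] [NormedAlgebra K L] [FiniteDimensional K L]
  [Algebra.IsSeparable K L]

/-- `N_e = e ∘ N_{L/K}` on units. -/
noncomputable def normVia (e : K ≃+* L) : Lˣ →* Lˣ :=
  Units.map ((e : K →* L).comp (Algebra.norm K : L →* K))

omit [IsUltrametricDist K] [CompleteSpace K] [IsUltrametricDist L] [FiniteDimensional K L]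
  [Algebra.IsSeparable K L] in
theorem coe_normVia (e : K ≃+* L) (u : Lˣ) :
    ((normVia e u : Lˣ) : L) = e (Algebra.norm K (u : L)) := rfl

/-- **Step A core (Dwork contraction).** -/
theorem mem_of_frobenius_contraction (e : K ≃+* L) (he : ∀ x : K, ‖e x‖ = ‖x‖)
    (hn2 : 2 ≤ Module.finrank K L)
    (q : K) (hq0 : q ≠ 0) (hq1 : ‖q‖ < 1) (t : L)
    (hdeg : (minpoly K t).natDegree = Module.finrank K L)
    (hc0 : ‖(minpoly K t).coeff 0‖ ≤ 1)
    (hc : ∀ k : ℕ, 0 < k → k < Module.finrank K L → ‖(minpoly K t).coeff k‖ ≤ ‖q‖)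
    (hn : ‖((Module.finrank K L : ℕ) : K)‖ ≤ ‖q‖)
    (hj : ∀ j : ℕ, 0 < j → j < Module.finrank K L → ‖(j : K)‖ = 1)
    (hval : ∀ x : L, ∃ π : K, ‖π‖ = ‖x‖)
    (hbasis : ∀ h : L, ‖h‖ ≤ 1 →
      ∃ P : (unitBall K)[X], h = aeval t (P.map (unitBall K).subtype))
    (m : ℕ) (hm : (m : L) ≠ 0) (S : Subgroup Lˣ) (hpow : ∀ y : Lˣ, y ^ m ∈ S)
    (hNS : ∀ s ∈ S, normVia e s ∈ S)
    (f s u : Lˣ) (hs : s ∈ S) (hfsu : f = s * u) (hu : ‖(u : L) - 1‖ < 1)
    (hf : f / normVia e (normVia e f) ∈ S) : f ∈ S := by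
  have : CompleteSpace L := FiniteDimensional.complete K L
  refine mem_of_contraction m hm S hpow (normVia e) hNS hn2 (norm_nonneg q) hq1 ?_ f s u hs hfsu
    hu hf
  intro v hv
  have h1 := norm_norm_sub_one_le (K := K) (L := L) q hq0 hq1.le t hdeg hc0 hc hn hj
    (fun x => norm_algebraMap' L x) hval hbasis
    (fun h hh => norm_algebraNorm_le_one hh) (v : L) hv
  have h2 : ((normVia e v : Lˣ) : L) - 1 = e (Algebra.norm K (v : L) - 1) := by
    rw [coe_normVia, map_sub, map_one]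
  rw [h2, he]
  exact h1

end Fermat.Agent.FF3.NormContr
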